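import Mathlib
import Fermat.Agent.ModFun.Degree
import Fermat.Agent.Semistable.SeriesLemmas

/-!
# The partial Atkin-Lehner involution on relations between the `j (d τ)`

For `q` prime and `q ∤ M` every relation between the `j (d τ)`, `d ∣ q M`, stays true after
exchanging `j (d τ)` and `j (q d τ)` for all `d ∣ M`.
-/

set_option autoImplicit false

noncomputable section

open UpperHalfPlane hiding I
open CongruenceSubgroup Matrix.SpecialLinearGroup
open scoped MatrixGroups

namespace Fermat.Agent.Semistable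

open ModularCurve Fermat.Agent.ModFun

/-! ### The index set -/

/-- Divisors of `n`, as an index type. -/
abbrev Dvs (n : ℕ) : Type := {d : ℕ // d ∣ n}

instance neZero_dvs {n : ℕ} [NeZero n] (d : Dvs n) : NeZero d.1 :=
  ⟨fun h => NeZero.ne n (Nat.eq_zero_of_zero_dvd (h ▸ d.2))⟩

/-- The generator `j (d τ)`. -/
def gen (K : Type*) [Field K] {n : ℕ} [NeZero n] (d : Dvs n) : LaurentSeries K :=
  qExpand K d.1 (jqModC K)

theorem range_gen (K : Type*) [Field K] (n : ℕ) [NeZero n] :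
    Set.range (gen K : Dvs n → LaurentSeries K) = divisorExpansionsC K n := by
  ext x
  constructor
  · rintro ⟨d, rfl⟩
    exact ⟨d.1, inferInstance, d.2, rfl⟩
  · rintro ⟨d, hne, hd, rfl⟩
    exact ⟨⟨d, hd⟩, rfl⟩

theorem coeffMap_gen {K L : Type*} [Field K] [Field L] (φ : K →+* L) {n : ℕ} [NeZero n]
    (d : Dvs n) : coeffMap φ (gen K d) = gen L d := by
  rw [gen, gen, coeffMap_qExpand, coeffMap_jqModC]

variable (q M : ℕ)

/-- Exchange `d` and `q d`. -/
def swapFun (d : ℕ) : ℕ := if q ∣ d then d / q else q * d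

theorem swapFun_of_dvd (hq : Nat.Coprime q M) (hq1 : q ≠ 1) {d : ℕ} (hd : d ∣ M) :
    swapFun q d = q * d := by
  rw [swapFun, if_neg]
  intro h
  exact hq1 (Nat.dvd_one.mp (hq.gcd_eq_one ▸ Nat.dvd_gcd dvd_rfl (h.trans hd)))

theorem swapFun_mul (hq : q ≠ 0) (d : ℕ) : swapFun q (q * d) = d := by
  rw [swapFun, if_pos (dvd_mul_right q d), Nat.mul_div_cancel_left _ (Nat.pos_of_ne_zero hq)]

theorem dvs_cases (hq : q.Prime) {d : ℕ} (hd : d ∣ q * M) :
    d ∣ M ∨ ∃ e, e ∣ M ∧ d = q * e := by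
  by_cases h : q ∣ d
  · obtain ⟨e, rfl⟩ := h
    exact Or.inr ⟨e, Nat.dvd_of_mul_dvd_mul_left hq.pos hd, rfl⟩
  · exact Or.inl ((Nat.Coprime.dvd_mul_left (Nat.Coprime.symm
      ((Nat.Prime.coprime_iff_not_dvd hq).mpr h))).mp hd)

variable [hq : Fact q.Prime]

/-- The exchange on divisors of `q * M`. -/
def swapDvs (hqM : ¬ q ∣ M) (d : Dvs (q * M)) : Dvs (q * M) :=
  ⟨swapFun q d.1, by
    rcases dvs_cases q M hq.out d.2 with h | ⟨e, he, h⟩
    · rw [swapFun_of_dvd q M ((Nat.Prime.coprime_iff_not_dvd hq.out).mpr hqM) hq.out.ne_one h]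
      exact mul_dvd_mul_left q h
    · rw [h, swapFun_mul q hq.out.ne_zero]
      exact dvd_mul_of_dvd_right he q⟩

theorem swapDvs_swapDvs (hqM : ¬ q ∣ M) (d : Dvs (q * M)) :
    swapDvs q M hqM (swapDvs q M hqM d) = d := by
  refine Subtype.ext ?_
  show swapFun q (swapFun q d.1) = d.1
  rcases dvs_cases q M hq.out d.2 with h | ⟨e, he, h⟩
  · rw [swapFun_of_dvd q M ((Nat.Prime.coprime_iff_not_dvd hq.out).mpr hqM) hq.out.ne_one h,
      swapFun_mul q hq.out.ne_zero]
  · rw [h, swapFun_mul q hq.out.ne_zero,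
      swapFun_of_dvd q M ((Nat.Prime.coprime_iff_not_dvd hq.out).mpr hqM) hq.out.ne_one he]

/-! ### Relations -/

theorem scaleH_scaleH (d e : ℕ) [NeZero d] [NeZero e] (τ : ℍ) :
    scaleH d (scaleH e τ) = scaleH (d * e) τ :=
  UpperHalfPlane.ext (by simp [coe_scaleH, mul_assoc])

theorem jH_scaleH_congr {d e : ℕ} [NeZero d] [NeZero e] (h : d = e) (τ : ℍ) :
    jH (scaleH d τ) = jH (scaleH e τ) := by
  subst h; rfl

theorem jH_scaleH_smul {n d : ℕ} [NeZero n] [NeZero d] (hd : d ∣ n) {g : SL(2, ℤ)}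
    (hg : g ∈ Gamma0 n) (τ : ℍ) : jH (scaleH d (g • τ)) = jH (scaleH d τ) :=
  (jd hd).2.2.1 g hg τ

variable [NeZero M]

/-- The point `W τ`, `W = ((q, a), (q M, q b))`. -/
theorem exists_atkin_point (hqM : ¬ q ∣ M) (τ : ℍ) :
    ∃ τ' : ℍ, ∀ d : Dvs (q * M),
      jH (scaleH d.1 τ') = jH (scaleH (swapDvs q M hqM d).1 τ) := by
  have hco : Nat.Coprime q M := (Nat.Prime.coprime_iff_not_dvd hq.out).mpr hqM
  have hbez := Int.isCoprime_iff_nat_coprime.mpr
    (show Nat.Coprime (q : ℤ).natAbs (M : ℤ).natAbs by simpa using hco)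
  obtain ⟨b, a, hab⟩ := hbez
  let g : SL(2, ℤ) := ⟨!![1, -a; (M : ℤ), (q : ℤ) * b], by
    rw [Matrix.det_fin_two_of]; linear_combination hab⟩
  let g' : SL(2, ℤ) := ⟨!![(q : ℤ), -a; (M : ℤ), b], by
    rw [Matrix.det_fin_two_of]; linear_combination hab⟩
  have hg : g ∈ Gamma0 M := by
    rw [Gamma0_mem, show g 1 0 = (M : ℤ) from rfl]; simp
  have hg' : g' ∈ Gamma0 M := by
    rw [Gamma0_mem, show g' 1 0 = (M : ℤ) from rfl]; simp
  refine ⟨g • scaleH q τ, fun d => ?_⟩
  rcases dvs_cases q M hq.out d.2 with h | ⟨e, he, h⟩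
  · have h1 : (swapDvs q M hqM d).1 = d.1 * q := by
      show swapFun q d.1 = _
      rw [swapFun_of_dvd q M hco hq.out.ne_one h, mul_comm]
    rw [jH_scaleH_smul h hg, scaleH_scaleH]
    exact jH_scaleH_congr h1.symm τ
  · have : NeZero e := ⟨fun h0 => NeZero.ne M (Nat.eq_zero_of_zero_dvd (h0 ▸ he))⟩
    have h1 : (swapDvs q M hqM d).1 = e := by
      show swapFun q d.1 = _
      rw [h, swapFun_mul q hq.out.ne_zero]
    have key : scaleH q (g • scaleH q τ) = g' • τ := by
      apply UpperHalfPlane.ext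
      rw [coe_scaleH, coe_SL_smul, coe_SL_smul, coe_scaleH]
      show (q : ℂ) * ((((1 : ℤ) : ℂ) * (q * τ) + ((-a : ℤ) : ℂ)) /
        (((M : ℤ) : ℂ) * (q * τ) + (((q : ℤ) * b : ℤ) : ℂ))) =
        ((((q : ℤ)) : ℂ) * τ + ((-a : ℤ) : ℂ)) / (((M : ℤ) : ℂ) * τ + (b : ℂ))
      push_cast
      rw [show (M : ℂ) * ((q : ℂ) * τ) + (q : ℂ) * b = (q : ℂ) * ((M : ℂ) * τ + b) by ring,
        one_mul, ← mul_div_assoc,
        mul_div_mul_left _ _ (Nat.cast_ne_zero.mpr hq.out.ne_zero)]
    rw [jH_scaleH_congr (h.trans (mul_comm q e)) (g • scaleH q τ),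
      ← scaleH_scaleH e q (g • scaleH q τ), key, jH_scaleH_smul he hg' τ]
    exact jH_scaleH_congr h1.symm τ

/-- Evaluation of holomorphic functions at a point. -/
def evalHol (n : ℕ) (τ : ℍ) : Hol n →ₐ[ℂ] ℂ :=
  (Pi.evalAlgHom ℂ (fun _ : ℍ => ℂ) τ).comp (Hol n).val

/-- The generators as holomorphic functions. -/
def genH (n : ℕ) [NeZero n] (d : Dvs n) : Hol n := jd d.2

theorem qExp_genH (n : ℕ) [NeZero n] (d : Dvs n) : qExp n (genH n d) = gen ℂ d := qExp_jd d.2

/-- Exchanging the generators preserves relations over `ℂ`. -/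
theorem aeval_swap_complex (hqM : ¬ q ∣ M) (P : MvPolynomial (Dvs (q * M)) ℂ)
    (hP : MvPolynomial.aeval (gen ℂ) P = 0) :
    MvPolynomial.aeval (fun d => gen ℂ (swapDvs q M hqM d)) P = 0 := by
  have hgen : (fun d => qExp (q * M) (genH (q * M) d)) = (gen ℂ : Dvs (q * M) → _) :=
    funext (qExp_genH _)
  have h0 : MvPolynomial.aeval (genH (q * M)) P = 0 := by
    refine qExp_injective (q * M) ?_
    rw [map_zero, MvPolynomial.comp_aeval_apply, hgen, hP]
  have h1 : MvPolynomial.aeval (fun d => genH (q * M) (swapDvs q M hqM d)) P = 0 := by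
    refine Subtype.ext (funext fun τ => ?_)
    obtain ⟨τ', hτ'⟩ := exists_atkin_point q M hqM τ
    show evalHol (q * M) τ _ = 0
    have h2 := congrArg (evalHol (q * M) τ') h0
    rw [MvPolynomial.comp_aeval_apply, map_zero] at h2
    rw [MvPolynomial.comp_aeval_apply]
    refine Eq.trans (DFunLike.congr_fun (MvPolynomial.algHom_ext fun d => ?_) P) h2
    rw [MvPolynomial.aeval_X, MvPolynomial.aeval_X]
    simp only [evalHol, AlgHom.comp_apply, Pi.evalAlgHom_apply, Subalgebra.coe_val, genH,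
      jd_apply]
    exact (hτ' d).symm
  have h3 := congrArg (qExp (q * M)) h1
  rw [MvPolynomial.comp_aeval_apply, map_zero] at h3
  refine Eq.trans (DFunLike.congr_fun (MvPolynomial.algHom_ext fun d => ?_) P) h3
  rw [MvPolynomial.aeval_X, MvPolynomial.aeval_X, qExp_genH]

/-- An embedding of the algebraic numbers into `ℂ`. -/
def toCx : Arith.QBar →ₐ[ℚ] ℂ := IsAlgClosed.lift

theorem coeffMap_aeval {K L : Type*} [Field K] [Field L] (φ : K →+* L) {ι : Type*}
    (g : ι → LaurentSeries K) (P : MvPolynomial ι K) :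
    coeffMap φ (MvPolynomial.aeval g P) =
      MvPolynomial.aeval (fun i => coeffMap φ (g i)) (MvPolynomial.map φ P) := by
  induction P using MvPolynomial.induction_on with
  | C a =>
    rw [MvPolynomial.map_C, MvPolynomial.algHom_C, MvPolynomial.algHom_C,
      algebraMap_laurentSeries_eq_single, algebraMap_laurentSeries_eq_single, coeffMap_single]
  | add a b ha hb => simp only [map_add, ha, hb]
  | mul_X a i ha => simp only [map_mul, ha, MvPolynomial.aeval_X, MvPolynomial.map_X]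

theorem coeffMap_injective {K L : Type*} [Field K] [Field L] (φ : K →+* L) :
    Function.Injective (coeffMap φ) := fun x y h => HahnSeries.ext (funext fun n => φ.injective (by
      have := congrArg (fun z => z.coeff n) h
      simpa using this))

/-- Exchanging the generators preserves relations over the algebraic numbers. -/
theorem aeval_swap (hqM : ¬ q ∣ M) (P : MvPolynomial (Dvs (q * M)) Arith.QBar)
    (hP : MvPolynomial.aeval (gen Arith.QBar) P = 0) :
    MvPolynomial.aeval (fun d => gen Arith.QBar (swapDvs q M hqM d)) P = 0 := by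
  refine coeffMap_injective (toCx : Arith.QBar →+* ℂ) ?_
  rw [map_zero, coeffMap_aeval]
  simp only [coeffMap_gen]
  refine aeval_swap_complex q M hqM _ ?_
  have := congrArg (coeffMap (toCx : Arith.QBar →+* ℂ)) hP
  rw [map_zero, coeffMap_aeval] at this
  simpa only [coeffMap_gen] using this

end Fermat.Agent.Semistable

end
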