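import Mathlib
import Fermat.Agent.RedTorsion.ReducedBasis
import Fermat.Agent.Semistable.Echelon

/-!
# Bases of a function field with independent reductions

A function field with finitely many embeddings into Laurent series, `t` an element whose
reductions act diagonally on a family with independent reductions: the family is a basis over the
rational function field, and integral elements satisfy monic relations with integral coefficients.
-/

set_option autoImplicit false

noncomputable section

namespace Fermat.Agent.Semistable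

open Polynomial IntermediateField
open Arith (QBar)

variable {A : ValuationSubring QBar} {q : ℕ}

/-! ### Scaling polynomials -/

/-- A nonzero finite family of polynomials has a scalar multiple which is integral and nonzero
mod the maximal ideal. -/
theorem exists_scale_poly {κ : Type*} [Finite κ] (P : κ → QBar[X]) (hP : ∃ a, P a ≠ 0) :
    ∃ (c : QBar) (R : κ → (A : Type)[X]), c ≠ 0 ∧ (∀ a, (R a).map A.subtype = C c * P a) ∧
      ∃ a, (R a).map (IsLocalRing.residue A) ≠ 0 := by
  classical
  have := Fintype.ofFinite κ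
  let S : Finset (κ × ℕ) := (Finset.univ.sigma fun a => (P a).support).image fun x => (x.1, x.2)
  have hS : ∀ a i, (P a).coeff i ≠ 0 → (a, i) ∈ S := fun a i h =>
    Finset.mem_image.mpr ⟨⟨a, i⟩, Finset.mem_sigma.mpr ⟨Finset.mem_univ a, mem_support_iff.mpr h⟩, rfl⟩
  obtain ⟨a₀, ha₀⟩ := hP
  obtain ⟨⟨a₁, i₁⟩, hmem, hmax⟩ := S.exists_max_image (fun x => A.valuation ((P x.1).coeff x.2))
    ⟨_, hS a₀ _ (leadingCoeff_ne_zero.mpr ha₀)⟩
  obtain ⟨⟨b, j⟩, hbj, hbe⟩ := Finset.mem_image.mp hmem
  have hne : (P a₁).coeff i₁ ≠ 0 := by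
    rw [Finset.mem_sigma, mem_support_iff] at hbj
    obtain ⟨rfl, rfl⟩ := Prod.mk.inj hbe
    exact hbj.2
  have hA : ∀ a i, ((P a₁).coeff i₁)⁻¹ * (P a).coeff i ∈ A := fun a i => by
    rcases eq_or_ne ((P a).coeff i) 0 with h | h
    · rw [h, mul_zero]; exact zero_mem A
    · rw [← A.valuation_le_one_iff, map_mul, map_inv₀,
        inv_mul_le_one₀ (zero_lt_iff.mpr ((Valuation.ne_zero_iff _).mpr hne))]
      exact hmax _ (hS a i h)
  let R : κ → (A : Type)[X] := fun a =>
    ∑ i ∈ (P a).support, C (⟨_, hA a i⟩ : A) * X ^ i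
  have hR : ∀ a, (R a).map A.subtype = C ((P a₁).coeff i₁)⁻¹ * P a := fun a => by
    simp only [R, Polynomial.map_sum, Polynomial.map_mul, map_C, Polynomial.map_pow, map_X]
    conv_rhs => rw [(P a).as_sum_support_C_mul_X_pow, Finset.mul_sum]
    exact Finset.sum_congr rfl fun i _ => by rw [← mul_assoc, ← C_mul]; rfl
  refine ⟨_, R, inv_ne_zero hne, hR, a₁, fun h => ?_⟩
  have h1 := congrArg (fun p => p.coeff i₁) h
  simp only [coeff_map, coeff_zero, IsLocalRing.residue_eq_zero_iff,
    ← ValuationSubring.coe_mem_nonunits_iff] at h1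
  have h2 := congrArg (fun p => p.coeff i₁) (hR a₁)
  simp only [coeff_map, coeff_C_mul, inv_mul_cancel₀ hne] at h2
  rw [show ((R a₁).coeff i₁ : QBar) = 1 from h2] at h1
  exact Arith.one_notMem_nonunits h1

/-! ### Pairs of embeddings -/

section Emb

variable {F : Type*} [Field F] [Algebra QBar F] {S : Type*} (ι : S → (F →ₐ[QBar] LSer))

variable (A) in
/-- Elements all of whose images lie in `locS`. -/
def loc2 : Subring F := ⨅ s, (locS A).comap (ι s).toRingHom

theorem mem_loc2 {x : F} : x ∈ loc2 A ι ↔ ∀ s, ι s x ∈ locS A := by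
  simp [loc2, Subring.mem_iInf]

theorem algebraMap_mem_loc2 {a : QBar} (ha : a ∈ A) : algebraMap QBar F a ∈ loc2 A ι :=
  (mem_loc2 ι).mpr fun s => by rw [(ι s).commutes]; exact algebraMap_mem_locS ha

variable (A) in
/-- The reductions of the images. -/
def red2 : loc2 A ι →+* (S → LaurentSeries (Res A)) :=
  RingHom.pi fun s => (redL A).comp
    (((ι s).toRingHom.comp (loc2 A ι).subtype).codRestrict (locS A) fun x => (mem_loc2 ι).mp x.2 s)

theorem red2_apply (x : loc2 A ι) (s : S) :
    red2 A ι x s = redL A ⟨ι s x.1, (mem_loc2 ι).mp x.2 s⟩ := rfl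

theorem red2_const {c : A} (s : S) :
    red2 A ι ⟨algebraMap QBar F c, algebraMap_mem_loc2 ι c.2⟩ s =
      algebraMap (Res A) _ (IsLocalRing.residue A c) := by
  rw [red2_apply, redL_congr _ (algebraMap_mem_locS c.2) ((ι s).commutes c), redL_algebraMap]

variable (t : loc2 A ι)

/-- Evaluation at `t` of a polynomial with integral coefficients. -/
def evA : (A : Type)[X] →+* loc2 A ι :=
  eval₂RingHom ((((algebraMap QBar F).comp A.subtype)).codRestrict (loc2 A ι)
    fun c => algebraMap_mem_loc2 ι c.2) t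

theorem coe_evA (P : (A : Type)[X]) :
    ((evA ι t P : loc2 A ι) : F) = aeval (t : F) (P.map A.subtype) := by
  show (loc2 A ι).subtype (eval₂ _ t P) = _
  rw [hom_eval₂, aeval_def, eval₂_map]
  rfl

theorem red2_evA (P : (A : Type)[X]) (s : S) :
    red2 A ι (evA ι t P) s = aeval (red2 A ι t s) (P.map (IsLocalRing.residue A)) := by
  show ((Pi.evalRingHom (fun _ : S => LaurentSeries (Res A)) s).comp (red2 A ι)) (eval₂ _ t P) = _
  rw [hom_eval₂, aeval_def, eval₂_map]
  congr 1
  refine RingHom.ext fun c => ?_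
  exact red2_const ι s

variable {κ : Type*} [Fintype κ]

/-- The reductions of the family `e` are independent over `k[t]`. -/
def RedIndep (e : κ → loc2 A ι) : Prop :=
  ∀ P : κ → (Res A)[X],
    (∀ s, ∑ a, aeval (red2 A ι t s) (P a) * red2 A ι (e a) s = 0) → ∀ a, P a = 0

variable {ι t} {e : κ → loc2 A ι}

theorem RedIndep.evA_sum (h : RedIndep ι t e) {R : κ → (A : Type)[X]}
    (hR : red2 A ι (∑ a, evA ι t (R a) * e a) = 0) : ∀ a, (R a).map (IsLocalRing.residue A) = 0 := by
  refine h _ fun s => ?_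
  have := congrFun hR s
  rw [map_sum, Finset.sum_apply, Pi.zero_apply] at this
  refine Eq.trans (Finset.sum_congr rfl fun a _ => ?_) this
  rw [map_mul, Pi.mul_apply, red2_evA]

theorem RedIndep.poly_indep (h : RedIndep ι t e) (P : κ → QBar[X])
    (h0 : ∑ a, aeval (t : F) (P a) * (e a : F) = 0) : ∀ a, P a = 0 := by
  by_contra hcon
  rw [not_forall] at hcon
  obtain ⟨c, R, hc, hR, a, ha⟩ := exists_scale_poly (A := A) P hcon
  refine ha (h.evA_sum (R := R) ?_ a)
  rw [show ∑ a, evA ι t (R a) * e a = 0 from Subtype.ext ?_, map_zero]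
  push_cast
  rw [← mul_zero (algebraMap QBar F c), ← h0, Finset.mul_sum]
  refine Finset.sum_congr rfl fun a _ => ?_
  rw [coe_evA, hR, map_mul, aeval_C, mul_assoc]

theorem RedIndep.transcendental [Nonempty κ] (h : RedIndep ι t e) :
    Transcendental QBar (t : F) := by
  rintro ⟨p, hp, hp0⟩
  classical
  obtain ⟨a⟩ := ‹Nonempty κ›
  refine hp ?_
  have := h.poly_indep (Pi.single a p) (by
    refine Finset.sum_eq_zero fun b _ => ?_
    rcases eq_or_ne b a with rfl | hb
    · rw [Pi.single_eq_same, hp0, zero_mul]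
    · rw [Pi.single_eq_of_ne hb, map_zero, zero_mul]) a
  rwa [Pi.single_eq_same] at this

/-- With the right cardinality every element is a combination with a common denominator. -/
theorem RedIndep.exists_coords [Nonempty κ] (h : RedIndep ι t e)
    (_hfin : FiniteDimensional QBar⟮(t : F)⟯ F)
    (hcard : Module.finrank QBar⟮(t : F)⟯ F = Fintype.card κ) (x : F) :
    ∃ (Q : QBar[X]) (P : κ → QBar[X]), Q ≠ 0 ∧
      aeval (t : F) Q * x = ∑ a, aeval (t : F) (P a) * (e a : F) := by
  have ht := h.transcendental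
  have hli : LinearIndependent QBar⟮(t : F)⟯ fun a => (e a : F) := by
    rw [Fintype.linearIndependent_iff]
    intro g hg a
    obtain ⟨Q, P, hQ, hQP⟩ := RedTorsion.exists_common_den ht g
    have hP := h.poly_indep P (by
      rw [← mul_zero (aeval (t : F) Q), ← hg, Finset.mul_sum]
      refine Finset.sum_congr rfl fun b _ => ?_
      rw [← hQP, IntermediateField.smul_def, smul_eq_mul, mul_assoc]) a
    have := hQP a
    rw [hP, map_zero, mul_eq_zero] at this
    exact Subtype.ext (this.resolve_left (ne_of_eq_of_ne rfl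
      (fun h0 => hQ (transcendental_iff.mp ht Q h0))))
  let b := basisOfLinearIndependentOfCardEqFinrank hli hcard.symm
  obtain ⟨Q, P, hQ, hQP⟩ := RedTorsion.exists_common_den ht (fun a => b.repr x a)
  refine ⟨Q, P, hQ, ?_⟩
  conv_lhs => rw [← b.sum_repr x, Finset.mul_sum]
  refine Finset.sum_congr rfl fun a _ => ?_
  rw [coe_basisOfLinearIndependentOfCardEqFinrank, IntermediateField.smul_def, smul_eq_mul,
    ← mul_assoc, hQP]

/-- **Gauss property**: integral elements have integral coordinates with primitive denominator. -/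
theorem RedIndep.exists_coords_int [Nonempty κ] (h : RedIndep ι t e)
    (hfin : FiniteDimensional QBar⟮(t : F)⟯ F)
    (hcard : Module.finrank QBar⟮(t : F)⟯ F = Fintype.card κ) (x : loc2 A ι) :
    ∃ (Q : (A : Type)[X]) (P : κ → (A : Type)[X]), Q.map (IsLocalRing.residue A) ≠ 0 ∧
      evA ι t Q * x = ∑ a, evA ι t (P a) * e a := by
  obtain ⟨Q, P, hQ, hQP⟩ := h.exists_coords hfin hcard (x : F)
  obtain ⟨c, R, hc, hR, a, ha⟩ := exists_scale_poly (A := A)
    (fun o : Option κ => o.elim Q P) ⟨none, hQ⟩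
  have heq : evA ι t (R none) * x = ∑ a, evA ι t (R (some a)) * e a := by
    refine Subtype.ext ?_
    push_cast
    simp only [coe_evA, hR, map_mul, aeval_C, Option.elim_none, Option.elim_some, mul_assoc]
    rw [hQP, Finset.mul_sum]
  refine ⟨R none, fun a => R (some a), fun h0 => ha ?_, heq⟩
  cases a with
  | none => exact h0
  | some a =>
    refine h.evA_sum (R := fun a => R (some a)) ?_ a
    rw [← heq, map_mul]
    funext s
    rw [Pi.mul_apply, red2_evA, h0, map_zero, zero_mul, Pi.zero_apply]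

/-! ### Monic relations with integral coefficients -/

variable (ι) (t) in
/-- The elements of `QBar(t)` with integral images. -/
def coeffRing : Subring F := (QBar⟮(t : F)⟯).toSubfield.toSubring ⊓ loc2 A ι

theorem coe_evA_mem_coeffRing (P : (A : Type)[X]) : (evA ι t P : F) ∈ coeffRing ι t := by
  refine ⟨?_, (evA ι t P).2⟩
  show (evA ι t P : F) ∈ QBar⟮(t : F)⟯
  rw [coe_evA]
  exact (RedTorsion.aevalGen (t : F) (P.map A.subtype)).2

theorem RedIndep.isIntegral_coeffRing [Nonempty κ] (h : RedIndep ι t e)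
    (htr : ∀ s, Transcendental (Res A) (red2 A ι t s))
    (hfin : FiniteDimensional QBar⟮(t : F)⟯ F)
    (hcard : Module.finrank QBar⟮(t : F)⟯ F = Fintype.card κ) {x : F} (hx : x ∈ loc2 A ι) :
    IsIntegral (coeffRing ι t) x := by
  let O : Subalgebra (coeffRing ι t) F :=
    { (loc2 A ι) with algebraMap_mem' := fun r => r.2.2 }
  refine IsIntegral.of_mem_of_fg O ?_ x hx
  classical
  refine ⟨Finset.univ.image fun a => (e a : F), le_antisymm ?_ fun y hy => ?_⟩
  · rw [Submodule.span_le]
    intro y hy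
    obtain ⟨a, -, rfl⟩ := Finset.mem_image.mp hy
    exact (e a).2
  obtain ⟨Q, P, hQ, hQP⟩ := h.exists_coords_int hfin hcard ⟨y, hy⟩
  have hQ0 : (evA ι t Q : F) ≠ 0 := by
    intro h0
    refine hQ (by_contra fun hne => ?_)
    refine hne (h.evA_sum (R := fun _ => Q) ?_ (Classical.arbitrary κ))
    rw [← Finset.mul_sum, show evA ι t Q = 0 from Subtype.ext h0, zero_mul, map_zero]
  have hinv : (evA ι t Q : F)⁻¹ ∈ coeffRing ι t := by
    refine ⟨(QBar⟮(t : F)⟯).inv_mem (coe_evA_mem_coeffRing Q).1, (mem_loc2 ι).mpr fun s => ?_⟩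
    have hne : redL A ⟨ι s (evA ι t Q : F), (mem_loc2 ι).mp (evA ι t Q).2 s⟩ ≠ 0 := by
      rw [← red2_apply, red2_evA]
      exact fun h0 => hQ (transcendental_iff.mp (htr s) _ h0)
    rw [map_inv₀]
    exact (inv_mem_locS _ hne).1
  have hy' : y = ∑ a, ((evA ι t Q : F)⁻¹ * (evA ι t (P a) : F)) * (e a : F) := by
    have := congrArg (fun z : loc2 A ι => (evA ι t Q : F)⁻¹ * (z : F)) hQP
    push_cast at this
    rw [inv_mul_cancel_left₀ hQ0, Finset.mul_sum] at this
    rw [this]
    exact Finset.sum_congr rfl fun a _ => (mul_assoc _ _ _).symm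
  rw [hy']
  refine sum_mem fun a _ => ?_
  exact Submodule.smul_mem _ (⟨_, mul_mem hinv (coe_evA_mem_coeffRing (P a))⟩ : coeffRing ι t)
    (Submodule.subset_span (Finset.mem_image_of_mem _ (Finset.mem_univ a)))

/-- A polynomial in `t` with values in `locS` has integral coefficients. -/
theorem exists_int_of_aeval_mem (htr : ∀ s, Transcendental (Res A) (red2 A ι t s)) [Nonempty S]
    {p : QBar[X]} (hp : aeval (t : F) p ∈ loc2 A ι) : p ∈ lifts A.subtype := by
  rcases eq_or_ne p 0 with rfl | hp0
  · exact zero_mem _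
  obtain ⟨c, R, hc, hR, a, ha⟩ := exists_scale_poly (A := A) (fun _ : Unit => p) ⟨(), hp0⟩
  obtain ⟨s⟩ := ‹Nonempty S›
  rcases Arith.eq_zero_or_mem_nonunits_or (A := A) (x := c⁻¹) with hci | hci
  · refine ⟨C (⟨c⁻¹, hci⟩ : A) * R a, ?_⟩
    rw [coe_mapRingHom, Polynomial.map_mul, map_C, hR, ← mul_assoc, ← C_mul]
    simp [inv_mul_cancel₀ hc]
  · rw [inv_inv] at hci
    have hcA := Arith.mem_of_mem_nonunits hci
    refine absurd ?_ ha
    refine transcendental_iff.mp (htr s) _ ?_
    rw [← red2_evA]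
    have e : evA ι t (R a) = ⟨_, algebraMap_mem_loc2 ι hcA⟩ * ⟨_, hp⟩ := Subtype.ext (by
      push_cast
      rw [coe_evA, hR, map_mul, aeval_C])
    rw [e, map_mul, Pi.mul_apply, red2_const ι (c := ⟨c, hcA⟩), (residue_eq_zero_iff hcA).mpr hci,
      map_zero, zero_mul]

/-- Gauss lemma for monic factors. -/
theorem mem_locS_of_mul (hA : A.LiesOverPrime q) (hq : q.Prime) {μ ν : LSer[X]} (hμ : μ.Monic)
    (hν : ν.Monic) (hμf : ∀ i, μ.coeff i ∈ fracS A) (hνf : ∀ i, ν.coeff i ∈ fracS A)
    (hmul : ∀ i, (μ * ν).coeff i ∈ locS A) : ∀ i, μ.coeff i ∈ locS A := by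
  classical
  -- scale a monic polynomial into `locS` keeping a nonzero reduction
  have scale : ∀ {f : LSer[X]}, f.Monic → (∀ i, f.coeff i ∈ fracS A) → ∃ c : QBar, c ∈ A ∧ c ≠ 0 ∧
      ∃ g : (locS A : Type)[X], g.map (locS A).subtype = C (algebraMap QBar LSer c) * f ∧
        g.map (redL A) ≠ 0 := by
    intro f hf hff
    have hsc : ∀ i ∈ f.support, ∃ c : QBar, c ≠ 0 ∧ ∃ h : algebraMap QBar LSer c * f.coeff i ∈ locS A,
        redL A ⟨_, h⟩ ≠ 0 := fun i hi => exists_scale hA hq (hff i) (mem_support_iff.mp hi)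
    choose! c hc hmem hred using hsc
    have hne : f.support.Nonempty := ⟨f.natDegree, mem_support_iff.mpr (by simp [hf.ne_zero])⟩
    obtain ⟨i₀, hi₀, hmin⟩ := f.support.exists_min_image (fun i => A.valuation (c i)) hne
    have hall : ∀ i, algebraMap QBar LSer (c i₀) * f.coeff i ∈ locS A := by
      intro i
      by_cases hi : i ∈ f.support
      · have hr : c i₀ / c i ∈ A := by
          rw [← A.valuation_le_one_iff, map_div₀,
            div_le_one₀ (zero_lt_iff.mpr ((Valuation.ne_zero_iff _).mpr (hc i hi)))]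
          exact hmin i hi
        have := mul_mem (algebraMap_mem_locS hr) (hmem i hi)
        rwa [← mul_assoc, ← map_mul, div_mul_cancel₀ _ (hc i hi)] at this
      · rw [notMem_support_iff.mp hi, mul_zero]
        exact zero_mem _
    have hcA : c i₀ ∈ A := by
      have h := hall f.natDegree
      rw [hf.coeff_natDegree, mul_one] at h
      rcases Arith.eq_zero_or_mem_nonunits_or (A := A) (x := c i₀) with h' | h'
      · exact h'
      · exfalso
        have hi' := Arith.mem_of_mem_nonunits h'
        have e : (⟨_, algebraMap_mem_locS hi'⟩ : locS A) * ⟨_, h⟩ = 1 := Subtype.ext (by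
          show algebraMap QBar LSer (c i₀)⁻¹ * algebraMap QBar LSer (c i₀) = 1
          rw [← map_mul, inv_mul_cancel₀ (hc i₀ hi₀), map_one])
        have := congrArg (redL A) e
        rw [map_mul, redL_algebraMap hi', (residue_eq_zero_iff hi').mpr h', map_zero, zero_mul,
          map_one] at this
        exact zero_ne_one this
    obtain ⟨g, hg⟩ : C (algebraMap QBar LSer (c i₀)) * f ∈ lifts (locS A).subtype := by
      rw [lifts_iff_coeff_lifts]
      intro i
      rw [coeff_C_mul]
      exact ⟨⟨_, hall i⟩, rfl⟩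
    rw [coe_mapRingHom] at hg
    refine ⟨c i₀, hcA, hc i₀ hi₀, g, hg, fun h0 => hred i₀ hi₀ ?_⟩
    have h1 := congrArg (fun p => p.coeff i₀) h0
    have h2 := congrArg (fun p => p.coeff i₀) hg
    simp only [coeff_map, coeff_C_mul, coeff_zero] at h1 h2
    rw [show (⟨_, hmem i₀ hi₀⟩ : locS A) = g.coeff i₀ from Subtype.ext h2.symm]
    exact h1
  obtain ⟨c, hcA, hc, g, hg, hgr⟩ := scale hμ hμf
  obtain ⟨d, hdA, hd, g', hg', hgr'⟩ := scale hν hνf
  have hcu : c ∉ A.nonunits := fun hcn => by
    obtain ⟨p, hp⟩ : μ * ν ∈ lifts (locS A).subtype :=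
      (lifts_iff_coeff_lifts _).mpr fun i => ⟨⟨_, hmul i⟩, rfl⟩
    rw [coe_mapRingHom] at hp
    have hcd : c * d ∈ A := mul_mem hcA hdA
    have e : g * g' = C (⟨_, algebraMap_mem_locS hcd⟩ : locS A) * p := by
      refine map_injective (locS A).subtype Subtype.val_injective ?_
      rw [Polynomial.map_mul, Polynomial.map_mul, hg, hg', map_C, hp]
      show _ = C (algebraMap QBar LSer (c * d)) * (μ * ν)
      rw [map_mul, C_mul]
      ring
    have := congrArg (Polynomial.map (redL A)) e
    rw [Polynomial.map_mul, Polynomial.map_mul, map_C, redL_algebraMap hcd,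
      (residue_eq_zero_iff hcd).mpr (Arith.nonunits_mul_right hcn hdA), map_zero, C_0, zero_mul]
      at this
    exact mul_ne_zero hgr hgr' this
  intro i
  obtain ⟨hc0, hci⟩ := (Arith.notMem_nonunits_iff hcA).mp hcu
  have h2 := congrArg (fun p => p.coeff i) hg
  simp only [coeff_map, coeff_C_mul] at h2
  have := mul_mem (algebraMap_mem_locS hci) (g.coeff i).2
  rwa [show ((g.coeff i : locS A) : LSer) = algebraMap QBar LSer c * μ.coeff i from h2,
    ← mul_assoc, ← map_mul, inv_mul_cancel₀ hc0, map_one, one_mul] at this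

/-- **Integral relations**: an integral element which is integral over `QBar[t]` satisfies a monic
relation with coefficients in `A[t]`. -/
theorem RedIndep.exists_monic_rel [Nonempty κ] [Nonempty S] (hA : A.LiesOverPrime q) (hq : q.Prime)
    (hfrac : ∀ s x, ι s x ∈ fracS A) (h : RedIndep ι t e)
    (htr : ∀ s, Transcendental (Res A) (red2 A ι t s))
    (hfin : FiniteDimensional QBar⟮(t : F)⟯ F)
    (hcard : Module.finrank QBar⟮(t : F)⟯ F = Fintype.card κ) {x : loc2 A ι}
    (hx : IsIntegral (Algebra.adjoin QBar {(t : F)}) (x : F)) :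
    ∃ R : (A : Type)[X][X], R.Monic ∧ eval₂ (evA ι t) x R = 0 := by
  set L := QBar⟮(t : F)⟯ with hL
  set μ := minpoly L (x : F) with hμdef
  have hxL : IsIntegral L (x : F) := Algebra.IsIntegral.isIntegral _
  have hμm : μ.Monic := minpoly.monic hxL
  -- the coefficients are polynomials in `t`
  have hμpol : ∀ i, ∃ p : QBar[X], aeval (t : F) p = ((μ.coeff i : L) : F) := by
    intro i
    obtain ⟨r, d, hrd⟩ := (mem_adjoin_simple_iff (F := QBar) ((μ.coeff i : L) : F)).mp (μ.coeff i).2
    have hint : IsIntegral (Algebra.adjoin QBar {(t : F)}) ((μ.coeff i : L) : F) := by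
      obtain ⟨p₀, hp₀, hp₀x⟩ := hx
      let : Algebra (Algebra.adjoin QBar {(t : F)}) L :=
        (Subalgebra.inclusion (algebra_adjoin_le_adjoin QBar {(t : F)})).toAlgebra
      have : IsScalarTower (Algebra.adjoin QBar {(t : F)}) L F :=
        IsScalarTower.of_algebraMap_eq fun _ => rfl
      have hdvd : μ ∣ p₀.map (algebraMap (Algebra.adjoin QBar {(t : F)}) L) := minpoly.dvd L _ (by
        rw [aeval_map_algebraMap]; exact hp₀x)
      exact (Polynomial.isIntegral_coeff_of_dvd p₀ μ hp₀ hμm hdvd i).map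
        (IsScalarTower.toAlgHom (Algebra.adjoin QBar {(t : F)}) L F)
    have ht := h.transcendental
    -- `QBar[t]` is integrally closed
    have : IsIntegrallyClosed (Algebra.adjoin QBar {(t : F)}) := by
      have e : QBar[X] ≃ₐ[QBar] Algebra.adjoin QBar {(t : F)} :=
        (AlgEquiv.ofInjective (aeval (t : F)) (transcendental_iff_injective.mp ht)).trans
          (Subalgebra.equivOfEq _ _ (Algebra.adjoin_singleton_eq_range_aeval QBar (t : F)).symm)
      exact IsIntegrallyClosed.of_equiv e.toRingEquiv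
    have hsolve : ∃ z : Algebra.adjoin QBar {(t : F)}, (z : F) = ((μ.coeff i : L) : F) := by
      open scoped IntermediateField.algebraAdjoinAdjoin in
      obtain ⟨z, hz⟩ := (IsIntegrallyClosed.isIntegral_iff
        (R := Algebra.adjoin QBar {(t : F)}) (K := L)).mp
        ((isIntegral_algHom_iff (IsScalarTower.toAlgHom (Algebra.adjoin QBar {(t : F)}) L F)
          (algebraMap L F).injective).mp hint)
      exact ⟨z, congrArg Subtype.val hz⟩
    obtain ⟨⟨z, hz⟩, hzi⟩ := hsolve
    rw [Algebra.adjoin_singleton_eq_range_aeval] at hz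
    obtain ⟨p, hp⟩ := hz
    exact ⟨p, hp.trans hzi⟩
  -- and they are integral
  have hμint : ∀ i, ((μ.coeff i : L) : F) ∈ loc2 A ι := by
    intro i
    rw [mem_loc2]
    intro s
    obtain ⟨χ, hχm, hχx⟩ := h.isIntegral_coeffRing htr hfin hcard x.2
    let inc : coeffRing ι t →+* L :=
      { toFun := fun r => ⟨(r : F), r.2.1⟩
        map_one' := rfl
        map_mul' := fun _ _ => rfl
        map_zero' := rfl
        map_add' := fun _ _ => rfl }
    have hdvd : μ ∣ χ.map inc := minpoly.dvd L _ (by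
      rw [aeval_def, eval₂_map]; exact hχx)
    obtain ⟨ν, hν⟩ := hdvd
    have hνm : ν.Monic := hμm.of_mul_monic_left (hν ▸ hχm.map inc)
    let f : L →+* LSer := (ι s).toRingHom.comp (algebraMap L F)
    have := mem_locS_of_mul hA hq (μ := μ.map f) (ν := ν.map f) (hμm.map f) (hνm.map f)
      (fun i => by rw [coeff_map]; exact hfrac s _) (fun i => by rw [coeff_map]; exact hfrac s _)
      (fun i => by
        rw [← Polynomial.map_mul, ← hν, Polynomial.map_map, coeff_map]
        exact (mem_loc2 ι).mp (χ.coeff i).2.2 s) i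
    rwa [coeff_map] at this
  choose p hp using hμpol
  have hlift : ∀ i, ∃ P : (A : Type)[X], aeval (t : F) (P.map A.subtype) = ((μ.coeff i : L) : F) := by
    intro i
    obtain ⟨P, hP⟩ := exists_int_of_aeval_mem htr (p := p i) (by rw [hp]; exact hμint i)
    exact ⟨P, by rw [coe_mapRingHom] at hP; rw [hP, hp]⟩
  choose P hP using hlift
  let R : (A : Type)[X][X] := X ^ μ.natDegree + ∑ i : Fin μ.natDegree, C (P i) * X ^ (i : ℕ)
  refine ⟨R, ?_, Subtype.ext ?_⟩
  · refine (monic_X_pow μ.natDegree).add_of_left ?_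
    rw [degree_X_pow]
    exact degree_sum_fin_lt fun i : Fin μ.natDegree => P i
  · show (loc2 A ι).subtype _ = _
    rw [hom_eval₂, ZeroMemClass.coe_zero, ← minpoly.aeval L (x : F), ← hμdef,
      aeval_eq_sum_range, Finset.sum_range_succ, hμm.coeff_natDegree, one_smul, add_comm,
      ← Fin.sum_univ_eq_sum_range (fun i => μ.coeff i • (x : F) ^ i)]
    simp only [R, eval₂_add, eval₂_X_pow, eval₂_finsetSum, eval₂_mul, eval₂_C]
    refine congrArg₂ (· + ·) rfl (Finset.sum_congr rfl fun i _ => ?_)
    rw [IntermediateField.smul_def, smul_eq_mul, ← hP]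
    exact congrArg (· * _) (coe_evA ι t (P i))

end Emb

end Fermat.Agent.Semistable

end
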