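import Mathlib
import Fermat.Agent.Igusa.Degree
import Fermat.Agent.Arith.RootsOfUnity
import Fermat.Agent.Semistable.GaussBasis
import Fermat.Agent.Semistable.WEquiv
import Fermat.Agent.Semistable.SeriesLemmas

/-!
# The two maps from level `M` to level `q M` and the two reductions at level `q M`
-/

set_option autoImplicit false

noncomputable section

namespace Fermat.Agent.Semistable

open ModularCurve
open Arith (QBar)

variable {A : ValuationSubring QBar}

/-- Every element of the function field is a quotient of integral series. -/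
theorem mem_fracS_of_mem {N : ℕ} [NeZero N] (x : FB N) : (x : LSer) ∈ fracS A := by
  have hle : (IntermediateField.adjoin QBar (Set.range (gen QBar : Dvs N → LSer))) ≤
      { fracS A with
        algebraMap_mem' := fun a => algebraMap_mem_fracS a } := by
    rw [IntermediateField.adjoin_le_iff]
    rintro _ ⟨d, rfl⟩
    exact intS_le_fracS (qExpand_mem_intS d.1 jqModC_mem_intS)
  rw [← fb_eq_adjoin] at hle
  exact hle x.2

theorem coe_arithmeticRingAut {N : ℕ} (σ : Arith.GQ) (x : FB N) :
    (arithmeticRingAut (modularFunctionFieldFull N) σ x : LSer) =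
      coeffMap (σ : QBar →+* QBar) (x : LSer) := rfl

/-! ### One embedding: level `M` -/

variable (M : ℕ)

/-- The standard embedding. -/
def iota1 : Unit → (FB M →ₐ[QBar] LSer) := fun _ => (FB M).val

theorem mem_loc1 {x : FB M} : x ∈ loc2 A (iota1 M) ↔ (x : LSer) ∈ locS A := by
  rw [mem_loc2]
  exact ⟨fun h => h (), fun h _ => h⟩

variable (A) in
/-- The reduction at level `M`. -/
def red1 : loc2 A (iota1 M) →+* LaurentSeries (Res A) :=
  (Pi.evalRingHom (fun _ : Unit => LaurentSeries (Res A)) ()).comp (red2 A (iota1 M))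

theorem red1_eq (x : loc2 A (iota1 M)) :
    red1 A M x = redL A ⟨(x.1 : LSer), (mem_loc1 M).mp x.2⟩ := rfl

variable [NeZero M]

theorem genF_mem_loc1 (d : Dvs M) : genF M d ∈ loc2 A (iota1 M) :=
  (mem_loc1 M).mpr (intS_le_locS (qExpand_mem_intS d.1 jqModC_mem_intS))

theorem red1_genF (d : Dvs M) :
    red1 A M ⟨genF M d, genF_mem_loc1 M d⟩ = gen (Res A) d := by
  rw [red1_eq, redL_congr _ (intS_le_locS (qExpand_mem_intS d.1 jqModC_mem_intS)) (coe_genF M d)]
  refine (redL_of_mem_intS ⟨_, qExpand_mem_intS d.1 jqModC_mem_intS⟩).trans ?_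
  rw [red_qExpand d.1 ⟨_, jqModC_mem_intS⟩, red_jqModC, gen]

/-! ### Two embeddings: level `q M` -/

variable (q : ℕ) [hq : Fact q.Prime] (hqM : ¬ q ∣ M)

/-- The expansions at the two cusps. -/
def iota2 : Fin 2 → (FB (q * M) →ₐ[QBar] LSer) :=
  ![(FB (q * M)).val, (FB (q * M)).val.comp (wHom q M hqM)]

theorem iota2_zero (x : FB (q * M)) : iota2 M q hqM 0 x = (x : LSer) := rfl

theorem iota2_one (x : FB (q * M)) : iota2 M q hqM 1 x = (wEquiv q M hqM x : LSer) := rfl

theorem mem_loc2_iff {x : FB (q * M)} :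
    x ∈ loc2 A (iota2 M q hqM) ↔ (x : LSer) ∈ locS A ∧ (wEquiv q M hqM x : LSer) ∈ locS A := by
  rw [mem_loc2, Fin.forall_fin_two]
  rfl

theorem iota2_fracS (s : Fin 2) (x : FB (q * M)) : iota2 M q hqM s x ∈ fracS A := by
  fin_cases s
  · exact mem_fracS_of_mem x
  · exact mem_fracS_of_mem (wEquiv q M hqM x)

theorem fb_le : FB M ≤ FB (q * M) := by
  rw [fb_eq_adjoin M, IntermediateField.adjoin_le_iff]
  rintro _ ⟨d, rfl⟩
  exact gen_mem (q * M) ⟨d.1, dvd_mul_of_dvd_right d.2 q⟩

/-- Inclusion of level `M`. -/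
def upF : FB M →ₐ[QBar] FB (q * M) := IntermediateField.inclusion (fb_le M q)

@[simp]
theorem coe_upF (x : FB M) : (upF M q x : LSer) = (x : LSer) :=
  IntermediateField.coe_inclusion (fb_le M q) x

/-- The second map from level `M`. -/
def downF : FB M →ₐ[QBar] FB (q * M) := (wHom q M hqM).comp (upF M q)

theorem coe_downF (x : FB M) : (downF M q hqM x : LSer) = qExpand QBar q (x : LSer) := by
  have h : ((FB (q * M)).val.comp (downF M q hqM)).toRingHom =
      (qExpand QBar q).comp (FB M).val.toRingHom := by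
    refine fb_ringHom_ext (fun a => ?_) fun d => ?_
    · show ((downF M q hqM (algebraMap QBar _ a) : FB (q * M)) : LSer) =
        qExpand QBar q (algebraMap QBar LSer a)
      rw [AlgHom.commutes, algebraMap_laurentSeries_eq_single, qExpand_single, mul_zero,
        ← algebraMap_laurentSeries_eq_single]
      rfl
    · show (wEquiv q M hqM (genF (q * M) ⟨d.1, dvd_mul_of_dvd_right d.2 q⟩) : LSer) =
        qExpand QBar q (gen QBar d)
      rw [wEquiv_gen_of_dvd q M hqM d.2, gen, qExpand_qExpand]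
  exact DFunLike.congr_fun h x

theorem wEquiv_upF (x : FB M) : wEquiv q M hqM (upF M q x) = downF M q hqM x := rfl

theorem wEquiv_downF (x : FB M) : wEquiv q M hqM (downF M q hqM x) = upF M q x :=
  wEquiv_wEquiv q M hqM _

theorem upF_mem_loc2 {x : FB M} (hx : x ∈ loc2 A (iota1 M)) :
    upF M q x ∈ loc2 A (iota2 M q hqM) := by
  rw [mem_loc2_iff]
  refine ⟨by rw [coe_upF]; exact (mem_loc1 M).mp hx, ?_⟩
  rw [wEquiv_upF, coe_downF]
  exact qExpand_mem_locS q ((mem_loc1 M).mp hx)

theorem downF_mem_loc2 {x : FB M} (hx : x ∈ loc2 A (iota1 M)) :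
    downF M q hqM x ∈ loc2 A (iota2 M q hqM) := by
  rw [mem_loc2_iff]
  refine ⟨?_, ?_⟩
  · rw [coe_downF]
    exact qExpand_mem_locS q ((mem_loc1 M).mp hx)
  · rw [wEquiv_downF, coe_upF]
    exact (mem_loc1 M).mp hx

theorem red2_upF (x : loc2 A (iota1 M)) :
    red2 A (iota2 M q hqM) ⟨_, upF_mem_loc2 M q hqM x.2⟩ =
      ![red1 A M x, qExpand (Res A) q (red1 A M x)] := by
  funext s
  rw [red2_apply]
  fin_cases s
  · exact redL_congr _ _ (show iota2 M q hqM 0 (upF M q x.1) = _ by
      rw [iota2_zero, coe_upF]; rfl)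
  · refine (redL_congr _ (qExpand_mem_locS q ((mem_loc1 M).mp x.2))
      (show iota2 M q hqM 1 (upF M q x.1) = _ by rw [iota2_one, wEquiv_upF, coe_downF])).trans ?_
    exact redL_qExpand q ((mem_loc1 M).mp x.2)

theorem red2_downF (x : loc2 A (iota1 M)) :
    red2 A (iota2 M q hqM) ⟨_, downF_mem_loc2 M q hqM x.2⟩ =
      ![qExpand (Res A) q (red1 A M x), red1 A M x] := by
  funext s
  rw [red2_apply]
  fin_cases s
  · refine (redL_congr _ (qExpand_mem_locS q ((mem_loc1 M).mp x.2))
      (show iota2 M q hqM 0 (downF M q hqM x.1) = _ by rw [iota2_zero, coe_downF])).trans ?_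
    exact redL_qExpand q ((mem_loc1 M).mp x.2)
  · exact redL_congr _ _ (show iota2 M q hqM 1 (downF M q hqM x.1) = _ by
      rw [iota2_one, wEquiv_downF, coe_upF]; rfl)

end Fermat.Agent.Semistable

end
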