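import Mathlib
import Fermat.Agent.Semistable.SeriesLemmas

/-!
# Subspaces of series stable under Frobenius on coefficients
-/

set_option autoImplicit false

noncomputable section

namespace Fermat.Agent.Semistable

open ModularCurve

/-- A finite-dimensional space of series stable under the coefficient Frobenius is spanned by its
elements `x` with `x ^ q = x(q ^ q)`. -/
theorem le_span_fixed {k : Type*} [Field k] (q : ℕ) [Fact q.Prime] [CharP k q]
    (V : Submodule k (LaurentSeries k)) [FiniteDimensional k V]
    (h : ∀ x ∈ V, coeffMap (frobenius k q) x ∈ V) :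
    V ≤ Submodule.span k {x | x ∈ V ∧ x ^ q = qExpand k q x} := by
  classical
  let f : ℤ → Module.Dual k V := fun n =>
    { toFun := fun x => (x : LaurentSeries k).coeff n
      map_add' := fun x y => by simp
      map_smul' := fun c x => by simp }
  have htop : Submodule.span k (Set.range f) = ⊤ := by
    by_contra hne
    obtain ⟨Φ, hΦ, hmap⟩ := Submodule.exists_dual_map_eq_bot_of_lt_top (lt_top_iff_ne_top.mpr hne)
      inferInstance
    obtain ⟨v, rfl⟩ := (Module.evalEquiv k V).surjective Φ
    refine hΦ ?_
    have hv : v = 0 := by
      refine Subtype.ext (HahnSeries.ext (funext fun n => ?_))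
      have : (Module.evalEquiv k V v) (f n) ∈
          (Submodule.span k (Set.range f)).map (Module.evalEquiv k V v) :=
        ⟨f n, Submodule.subset_span ⟨n, rfl⟩, rfl⟩
      rw [hmap, Submodule.mem_bot, Module.evalEquiv_apply] at this
      simpa [f] using this
    rw [hv, map_zero]
  obtain ⟨b, hb, hspan, hli⟩ := exists_linearIndependent k (Set.range f)
  rw [htop] at hspan
  have : Finite b := hli.finite
  have := Fintype.ofFinite b
  let e : V →ₗ[k] (b → k) := LinearMap.pi fun i => (i : Module.Dual k V)
  have hinj : Function.Injective e := by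
    rw [← LinearMap.ker_eq_bot, LinearMap.ker_eq_bot']
    intro x hx
    have hz : ∀ φ ∈ Submodule.span k b, φ x = 0 := fun φ hφ => by
      induction hφ using Submodule.span_induction with
      | mem φ hφ => exact congrFun hx ⟨φ, hφ⟩
      | zero => rfl
      | add _ _ _ _ h1 h2 => simp [h1, h2]
      | smul c _ _ h1 => simp [h1]
    exact (Module.forall_dual_apply_eq_zero_iff k x).mp fun φ => hz φ (hspan ▸ Submodule.mem_top)
  have hsurj : Function.Surjective e := by
    refine (LinearMap.injective_iff_surjective_of_finrank_eq_finrank ?_).mp hinj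
    rw [Module.finrank_fintype_fun_eq_card, ← Subspace.dual_finrank_eq,
      ← finrank_top k (Module.Dual k V), ← hspan,
      finrank_span_set_eq_card (R := k) (s := b) hli, Set.toFinset_card]
  intro x hx
  have key : ∀ i : b, ∃ u : V, e u = Pi.single i 1 ∧
      (u : LaurentSeries k) ^ q = qExpand k q (u : LaurentSeries k) := by
    intro i
    obtain ⟨u, hu⟩ := hsurj (Pi.single i 1)
    refine ⟨u, hu, pow_char_eq_qExpand_of_fixed q fun n => ?_⟩
    have hfix : (⟨_, h u u.2⟩ : V) = u := hinj (by
      funext j
      obtain ⟨n, hn⟩ := hb j.2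
      have h1 : ∀ w : V, e w j = (w : LaurentSeries k).coeff n := fun w => by
        show (j : Module.Dual k V) w = _
        rw [← hn]; rfl
      have h2 : (u : LaurentSeries k).coeff n = (Pi.single i 1 : b → k) j := by
        rw [← h1, hu]
      rw [h1, h1, coeffMap_coeff, frobenius_def, h2]
      rcases eq_or_ne j i with rfl | hji
      · simp
      · simp [hji, zero_pow (Fact.out : q.Prime).ne_zero])
    have := congrArg (fun w : V => (w : LaurentSeries k).coeff n) hfix
    simpa [frobenius_def] using this
  choose u hu hfix using key
  have hxe : (⟨x, hx⟩ : V) = ∑ i, e ⟨x, hx⟩ i • u i := hinj (by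
    rw [map_sum]
    simp only [map_smul, hu]
    funext j
    simp [Finset.sum_apply, Pi.single_apply])
  have hx' : x = ((∑ i, e ⟨x, hx⟩ i • u i : V) : LaurentSeries k) := congrArg Subtype.val hxe
  rw [hx', Submodule.coe_sum]
  exact Submodule.sum_mem _ fun i _ =>
    Submodule.smul_mem _ _ (Submodule.subset_span ⟨(u i).2, hfix i⟩)

end Fermat.Agent.Semistable

end
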