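import Mathlib
import Fermat.Agent.Semistable.ModRel
import Fermat.Agent.Semistable.Spaces

/-!
# Orders of `j(q τ)` at the places of level `q M`
-/

set_option autoImplicit false
set_option synthInstance.maxHeartbeats 400000

noncomputable section

namespace Fermat.Agent.Semistable

open ModularCurve AlgebraicCurve Polynomial
open Arith (QBar)

section Generic

variable {K F F' : Type*} [Field K] [Field F] [Field F'] [Algebra K F] [Algebra K F']

/-- An element integral over `K[u]` is regular wherever `u` is. -/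
theorem mem_ordGe_zero_of_isIntegral (v : Place K F) {u z : F} (hu : u ∈ FF.ordGe v 0)
    (hz : IsIntegral (Algebra.adjoin K {u}) z) : z ∈ FF.ordGe v 0 := by
  obtain ⟨P, hP, hev⟩ := hz
  refine RedTorsion.mem_ordGe_zero_of_monic_rel v (d := P.natDegree)
    (a := fun i => (P.coeff i : F)) (fun i => ?_) ?_
  · obtain ⟨p, hp⟩ := (Algebra.adjoin_singleton_eq_range_aeval K u).le (P.coeff i).2
    rw [← hp]
    rw [FF.mem_ordGe_zero] at hu ⊢
    exact FF.aeval_mem_valuationSubring v hu p
  · rw [eval₂_eq_sum_range, Finset.sum_range_succ, hP.coeff_natDegree, map_one, one_mul] at hev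
    rw [add_comm]
    exact hev

variable [FF.IsFunctionField K F]

/-- Images of functions with bounded poles over the poles of `x`. -/
theorem map_mem_ordGe (φ : F →ₐ[K] F') {x z : F} {n : ℕ}
    (hz : z ∈ riemannRochSpace (n • FF.poles K x)) (v : Place K F') :
    φ z ∈ FF.ordGe v (-((n : ℤ) * max 0 (-v.ord (φ x)))) := by
  have hint : ∀ {u w : F}, IsIntegral (Algebra.adjoin K {u}) w →
      IsIntegral (Algebra.adjoin K {φ u}) (φ w) := by
    intro u w hw
    obtain ⟨P, hP, hev⟩ := hw
    let f : Algebra.adjoin K {u} →+* Algebra.adjoin K {φ u} :=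
      RingHom.codRestrict (φ.toRingHom.comp (Algebra.adjoin K {u}).val.toRingHom)
        (Algebra.adjoin K {φ u}) fun a => by
          have : φ a ∈ (Algebra.adjoin K {u}).map φ := ⟨a, a.2, rfl⟩
          rwa [AlgHom.map_adjoin, Set.image_singleton] at this
    refine ⟨P.map f, hP.map _, ?_⟩
    rw [eval₂_map]
    refine Eq.trans ?_ ((congrArg φ hev).trans (map_zero φ))
    exact (hom_eval₂ P _ φ.toRingHom w).symm
  by_cases hv : v.ord (φ x) < 0
  · have hx0 : φ x ≠ 0 := fun h => by simp [h] at hv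
    have h := mem_ordGe_zero_of_isIntegral v (u := φ x⁻¹) (FF.mem_ordGe_of_le v (by
      rw [map_inv₀, v.ord_inv]; omega)) (hint (isIntegral_inv_of_mem_poles hz))
    rw [map_mul, map_pow, map_inv₀] at h
    have h2 := FF.mul_mem_ordGe v h (FF.pow_mem_ordGe v
      (FF.mem_ordGe_of_le v (le_refl (v.ord (φ x)))) n)
    rw [mul_assoc, ← mul_pow, inv_mul_cancel₀ hx0, one_pow, mul_one, zero_add] at h2
    refine FF.ordGe_anti v (le_of_eq ?_) h2
    rw [max_eq_right (by omega)]
    ring
  · refine FF.ordGe_anti v (le_of_eq ?_) (mem_ordGe_zero_of_isIntegral v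
      (FF.mem_ordGe_of_le v (show 0 ≤ v.ord (φ x) by omega)) (hint (isIntegral_of_mem_poles hz)))
    rw [max_eq_left (by omega)]
    ring

end Generic

variable (M : ℕ) [NeZero M] (q : ℕ) [hq : Fact q.Prime] (hqM : ¬ q ∣ M)

/-- Relations between series with constant coefficients hold in the function field. -/
theorem eval₂_eq_zero_of_ev2 {N : ℕ} {x y : FB N} {P : QBar[X][X]}
    (h : ev2 (x : LSer) (y : LSer) P = 0) : P.eval₂ (aeval x).toRingHom y = 0 := by
  refine (FB N).val.injective ?_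
  rw [map_zero]
  refine Eq.trans ?_ h
  show (FB N).val.toRingHom _ = _
  rw [hom_eval₂, ev2]
  congr 1
  exact RingHom.ext fun p => (aeval_algHom_apply (FB N).val x p).symm

/-- The modular relation at level `q M`, with the specialisation at `j(q τ) = 0`. -/
theorem exists_modRel_up (A : ValuationSubring QBar) :
    ∃ Φ : QBar[X][X], Φ.Monic ∧ Φ.natDegree = q + 1 ∧
      (∀ k < q + 1, (Φ.coeff k).natDegree ≤ q * (q + 1 - k)) ∧
      Φ.eval₂ (aeval (upF M q (jM M))).toRingHom (downF M q hqM (jM M)) = 0 ∧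
      Φ.eval₂ (aeval (downF M q hqM (jM M))).toRingHom (upF M q (jM M)) = 0 ∧
      ∀ k i, (Φ.coeff k).coeff i ∈ A := by
  obtain ⟨Φ, hm, hd, hint, hdeg, h1, h2⟩ := exists_modRel q A
  refine ⟨Φ, hm, hd, hdeg, eval₂_eq_zero_of_ev2 ?_, eval₂_eq_zero_of_ev2 ?_, hint⟩
  · rwa [coe_upF, coe_downF, coe_jM]
  · rwa [coe_upF, coe_downF, coe_jM]

/-- Where `j` has a pole, so does `j(q τ)`, of at most `q` times the order. -/
theorem ord_downF_jM (v : Place QBar (FB (q * M))) :
    (0 ≤ v.ord (upF M q (jM M)) → 0 ≤ v.ord (downF M q hqM (jM M))) ∧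
      (v.ord (upF M q (jM M)) < 0 → v.ord (downF M q hqM (jM M)) < 0 ∧
        (q : ℤ) * v.ord (upF M q (jM M)) ≤ v.ord (downF M q hqM (jM M))) := by
  obtain ⟨A, -⟩ := Arith.exists_liesOverPrime hq.out
  obtain ⟨Φ, hm, hd, hdeg, h1, h2, -⟩ := exists_modRel_up M q hqM A
  set J := upF M q (jM M)
  set U := downF M q hqM (jM M)
  refine ⟨fun hJ => ?_, fun hJ => ⟨?_, ?_⟩⟩
  · have := mem_ordGe_zero_of_rel v (FF.mem_ordGe_of_le v hJ) hm h1
    exact (FF.ord_nonneg v ((FF.mem_ordGe_zero v).mp this))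
  · by_contra hU
    have := mem_ordGe_zero_of_rel v (FF.mem_ordGe_of_le v (not_lt.mp hU)) hm h2
    exact absurd (FF.ord_nonneg v ((FF.mem_ordGe_zero v).mp this)) (not_le.mpr hJ)
  · have hJ0 : J ≠ 0 := fun h => by simp [h] at hJ
    have hmem : U * J⁻¹ ^ q ∈ FF.ordGe v 0 := by
      refine RedTorsion.mem_ordGe_zero_of_monic_rel v (d := q + 1)
        (a := fun i => aeval J (Φ.coeff i) * J⁻¹ ^ (q * (q + 1 - i))) (fun i => ?_) ?_
      · by_cases hi : i < q + 1
        · have ha := RedTorsion.aeval_mem_ordGe v J (hdeg i hi)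
          refine FF.ordGe_anti v (le_of_eq ?_) (FF.mul_mem_ordGe v ha (FF.pow_mem_ordGe v
            (FF.mem_ordGe_of_le v (le_refl (v.ord J⁻¹))) (q * (q + 1 - i))))
          rw [FF.poles_apply, max_eq_right (by omega), v.ord_inv]
          ring
        · rw [show q + 1 - i = 0 by omega, mul_zero, pow_zero, mul_one]
          rcases (by omega : i = q + 1 ∨ q + 1 < i) with rfl | hi'
          · rw [← hd, hm.coeff_natDegree, map_one]
            exact FF.mem_ordGe_of_le v (by simp)
          · rw [coeff_eq_zero_of_natDegree_lt (by omega), map_zero]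
            exact zero_mem _
      · rw [eval₂_eq_sum_range, hd, Finset.sum_range_succ] at h1
        rw [← hd, hm.coeff_natDegree, map_one, one_mul, hd] at h1
        have h3 := congrArg (· * J⁻¹ ^ (q * (q + 1))) h1
        simp only [zero_mul, add_mul, Finset.sum_mul] at h3
        rw [add_comm, mul_pow, ← pow_mul]
        refine Eq.trans ?_ h3
        congr 1
        refine Finset.sum_congr rfl fun i hi => ?_
        have hi' : i < q + 1 := Finset.mem_range.mp hi
        rw [mul_pow, ← pow_mul, AlgHom.toRingHom_eq_coe, RingHom.coe_coe]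
        rw [show aeval J (Φ.coeff i) * J⁻¹ ^ (q * (q + 1 - i)) * (U ^ i * J⁻¹ ^ (q * i)) =
          aeval J (Φ.coeff i) * U ^ i * (J⁻¹ ^ (q * (q + 1 - i)) * J⁻¹ ^ (q * i)) by ring,
          ← pow_add, ← mul_add, Nat.sub_add_cancel hi'.le]
    have h := FF.mul_mem_ordGe v hmem (FF.pow_mem_ordGe v
      (FF.mem_ordGe_of_le v (le_refl (v.ord J))) q)
    rw [mul_assoc, ← mul_pow, inv_mul_cancel₀ hJ0, one_pow, mul_one, zero_add] at h
    rcases eq_or_ne U 0 with hU | hU
    · rw [hU, v.ord_zero]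
      nlinarith [hq.out.pos]
    · exact FF.le_ord_of_mem_ordGe v hU h

/-- `j(q τ) / P(j(τ))` for the specialised modular polynomial `P`. -/
theorem exists_special (A : ValuationSubring QBar) :
    ∃ P : QBar[X], P.Monic ∧ P.natDegree = q + 1 ∧ (∀ i, P.coeff i ∈ A) ∧
      ∃ g : FB (q * M), aeval (upF M q (jM M)) P = downF M q hqM (jM M) * g ∧
        ∀ v : Place QBar (FB (q * M)), 0 ≤ v.ord (upF M q (jM M)) → g ∈ FF.ordGe v 0 := by
  obtain ⟨Φ, hm, hd, hdeg, h1, h2, hint⟩ := exists_modRel_up M q hqM A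
  set J := upF M q (jM M)
  set U := downF M q hqM (jM M)
  set P := Φ.map constantCoeff with hP
  obtain ⟨R, hR⟩ : C (X : QBar[X]) ∣ Φ - P.map C := by
    rw [C_dvd_iff_dvd_coeff]
    intro k
    rw [X_dvd_iff, coeff_sub, coeff_map, hP, coeff_map, coeff_sub, constantCoeff_apply, coeff_C_zero,
      sub_self]
  refine ⟨P, hm.map _, by rw [hP, hm.natDegree_map, hd], fun i => by
    rw [hP, coeff_map, constantCoeff_apply]; exact hint i 0, -R.eval₂ (aeval U).toRingHom J,
    ?_, fun v hv => neg_mem ?_⟩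
  · have h3 := congrArg (eval₂ (aeval U).toRingHom J) hR
    rw [eval₂_sub, eval₂_mul, eval₂_C, h2, eval₂_map] at h3
    have hC : (aeval U : QBar[X] →ₐ[QBar] FB (q * M)).toRingHom.comp C = algebraMap QBar _ :=
      RingHom.ext fun a => aeval_C U a
    rw [hC, ← aeval_def, zero_sub] at h3
    simp only [AlgHom.toRingHom_eq_coe, RingHom.coe_coe, aeval_X] at h3
    rw [AlgHom.toRingHom_eq_coe, mul_neg, ← h3, neg_neg]
  · have hU := (ord_downF_jM M q hqM v).1 hv
    rw [eval₂_eq_sum_range]
    refine sum_mem fun i _ => ?_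
    have h4 := FF.aeval_mem_valuationSubring v
      ((FF.mem_ordGe_zero v).mp (FF.mem_ordGe_of_le v hU)) (R.coeff i)
    exact (FF.mem_ordGe_zero v).mpr (mul_mem h4
      (pow_mem ((FF.mem_ordGe_zero v).mp (FF.mem_ordGe_of_le v hv)) i))

/-- The second map multiplies pole bounds by at most `q`. -/
theorem downF_mem_HN {x : FB M} {n : ℕ} (hx : x ∈ HM M n) :
    downF M q hqM x ∈ HN M q (q * n) := by
  rw [RedTorsion.mem_polesSpace]
  intro v
  refine FF.ordGe_anti v ?_ (map_mem_ordGe (downF M q hqM) hx v)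
  rw [FF.poles_apply, neg_le_neg_iff]
  obtain ⟨h1, h2⟩ := ord_downF_jM M q hqM v
  have hq0 : (0 : ℤ) ≤ n := Int.natCast_nonneg n
  by_cases hJ : v.ord (upF M q (jM M)) < 0
  · obtain ⟨h3, h4⟩ := h2 hJ
    rw [max_eq_right (by omega), max_eq_right (by omega)]
    push_cast
    nlinarith
  · rw [max_eq_left (by have := h1 (by omega); omega), mul_zero]
    exact mul_nonneg (Int.natCast_nonneg _) (le_max_left _ _)

theorem upF_mem_HN {x : FB M} {n : ℕ} (hx : x ∈ HM M n) : upF M q x ∈ HN M q n := by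
  rw [RedTorsion.mem_polesSpace]
  intro v
  rw [FF.poles_apply]
  exact map_mem_ordGe (upF M q) hx v

/-- The involution multiplies pole bounds by at most `q`. -/
theorem wEquiv_mem_HN {x : FB (q * M)} {n : ℕ} (hx : x ∈ HN M q n) :
    wEquiv q M hqM x ∈ HN M q (q * n) := by
  rw [RedTorsion.mem_polesSpace]
  intro v
  refine FF.ordGe_anti v ?_ (map_mem_ordGe (wEquiv q M hqM).toAlgHom hx v)
  have hw : (wEquiv q M hqM).toAlgHom (upF M q (jM M)) = downF M q hqM (jM M) := rfl
  rw [hw, FF.poles_apply, neg_le_neg_iff]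
  obtain ⟨h1, h2⟩ := ord_downF_jM M q hqM v
  have hq0 : (0 : ℤ) ≤ n := Int.natCast_nonneg n
  by_cases hJ : v.ord (upF M q (jM M)) < 0
  · obtain ⟨h3, h4⟩ := h2 hJ
    rw [max_eq_right (by omega), max_eq_right (by omega)]
    push_cast
    nlinarith
  · rw [max_eq_left (by have := h1 (by omega); omega), mul_zero]
    exact mul_nonneg (Int.natCast_nonneg _) (le_max_left _ _)

end Fermat.Agent.Semistable

end
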