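import Mathlib
import Fermat.Agent.FF.Along
import Fermat.Agent.GaloisReps.HeckeGalois
import Fermat.Agent.GaloisReps.UnipotentModel
import Fermat.Agent.Semistable.LocalTheory

/-!
# Inertia at an exactly dividing prime, at an arbitrary level

Pull back to a level where the genus does not drop; pushing forward multiplies by the degree.
-/

set_option autoImplicit false
set_option synthInstance.maxHeartbeats 400000
set_option maxHeartbeats 1000000
set_option linter.unusedSectionVars false

noncomputable section

namespace Fermat.Agent.Semistable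

open ModularCurve AlgebraicCurve Polynomial
open Arith (QBar)

section PushPull

variable {K F F' : Type*} [Field K] [Field F] [Field F'] [Algebra K F] [Algebra K F']

/-- Pushing forward a pullback multiplies by the degree. -/
theorem pushforward_pullback [Algebra F F'] [IsScalarTower K F F'] [FiniteDimensional F F']
    [FF.IsFunctionField K F] [FF.IsFunctionField K F'] (D : Divisor K F) :
    Divisor.pushforward F (Divisor.pullback F' D) = (Module.finrank F F') • D := by
  induction D using Finsupp.induction with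
  | zero => rw [map_zero, map_zero, smul_zero]
  | single_add v n D _ _ ih =>
    rw [map_add, map_add, ih, smul_add, Divisor.pullback_single, map_sum]
    congr 1
    rw [Finsupp.smul_single, nsmul_eq_mul,
      ← FF.sum_ramification_inertia (K := K) (F := F) (F' := F') v, Finset.sum_mul,
      ← Finsupp.singleAddHom_apply, map_sum]
    refine Finset.sum_congr rfl fun w hw => ?_
    rw [Divisor.pushforward_single, Place.mem_fiber.mp hw]
    congr 1
    ring


/-- If `(g' - 1) ^ 2` makes a class of `F'` principal then `deg φ` times `(g - 1) ^ 2` makes the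
class of `F` below it principal. -/
theorem finrankAlong_smul_sq_mem [IsAlgClosed K] [FF.IsFunctionField K F] [FF.IsFunctionField K F']
    (g : SemilinearAut K F) (g' : SemilinearAut K F') (φ : F →ₐ[K] F')
    (hφ : ∀ x : F, φ (g • x) = g' • φ x) (m : ℕ)
    (h' : ∀ (D : Divisor K F') (f : F'), f ≠ 0 → (∀ v, v.ord f = (m : ℤ) * D v) →
      g' • (g' • D - D) - (g' • D - D) ∈ Divisor.principal (K := K) (F := F'))
    {D : Divisor K F} (hD : m • D ∈ Divisor.principal (K := K) (F := F)) :
    finrankAlong K φ • (g • (g • D - D) - (g • D - D)) ∈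
      Divisor.principal (K := K) (F := F) := by
  have hi := FF.isIntegralAlong φ
  have hp : (Divisor.pullbackAlong φ hi (m • D)).IsPrincipal :=
    Divisor.isPrincipal_pullbackAlong φ hi hD
  rw [map_nsmul] at hp
  obtain ⟨f, hf, hfD⟩ := hp
  have h1 := h' (Divisor.pullbackAlong φ hi D) f hf fun v => by
    rw [← hfD v, Finsupp.smul_apply, nsmul_eq_mul]
  rw [← GaloisReps.pullbackAlong_smul g g' φ hi hφ, ← map_sub,
    ← GaloisReps.pullbackAlong_smul g g' φ hi hφ, ← map_sub] at h1
  have h2 := Divisor.isPrincipal_pushforwardAlong φ hi (FF.finiteAlong φ)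
    (FF.normFormulaAlong φ (FF.finiteAlong φ)) h1
  have h3 : Divisor.pushforwardAlong φ hi
      (Divisor.pullbackAlong φ hi (g • (g • D - D) - (g • D - D))) =
      finrankAlong K φ • (g • (g • D - D) - (g • D - D)) := by
    let := algebraAlong φ
    have := isScalarTower_along φ
    have := isIntegral_along φ hi
    have : FiniteDimensional F F' := FF.finiteAlong φ
    exact pushforward_pullback (F' := F') _
  rw [h3] at h2
  exact h2

end PushPull

variable {M : ℕ} [NeZero M] {q : ℕ} [hq : Fact q.Prime]

theorem coe_inclusion_generic {k L : Type*} [Field k] [Field L] [Algebra k L]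
    {E E' : IntermediateField k L} (h : E ≤ E') (x : E) :
    ((IntermediateField.inclusion h x : E') : L) = x := rfl

theorem fb_le_fb {n n' : ℕ} [NeZero n] [NeZero n'] (h : n ∣ n') : FB n ≤ FB n' := by
  rw [fb_eq_adjoin n, IntermediateField.adjoin_le_iff]
  rintro _ ⟨d, rfl⟩
  exact gen_mem n' ⟨d.1, d.2.trans h⟩

/-- The inclusion of level `n` into a multiple. -/
def levelIncF {n n' : ℕ} [NeZero n] [NeZero n'] (h : n ∣ n') : FB n →ₐ[QBar] FB n' :=
  IntermediateField.inclusion (fb_le_fb h)

theorem coe_levelIncF {n n' : ℕ} [NeZero n] [NeZero n'] (h : n ∣ n') (x : FB n) :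
    (levelIncF h x : LSer) = (x : LSer) :=
  coe_inclusion_generic (fb_le_fb h) x

theorem levelIncF_galois {n n' : ℕ} [NeZero n] [NeZero n'] (h : n ∣ n') (σ : Arith.GQ) (x : FB n) :
    levelIncF h (arithmeticGalois (modularFunctionFieldFull n) σ • x) =
      arithmeticGalois (modularFunctionFieldFull n') σ • levelIncF h x :=
  Subtype.ext (by
    rw [coe_levelIncF, coe_arithmeticGalois_smul, coe_arithmeticGalois_smul, coe_levelIncF])

/-- An auxiliary factor prime to `q` making the level good. -/
theorem exists_aux (q : ℕ) [Fact q.Prime] : ∃ c, (c = 4 ∨ c = 9) ∧ ¬ q ∣ c := by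
  by_cases h2 : q = 2
  · exact ⟨9, Or.inr rfl, by subst h2; decide⟩
  · refine ⟨4, Or.inl rfl, fun h => h2 ?_⟩
    exact (Nat.prime_dvd_prime_iff_eq Fact.out Nat.prime_two).mp
      ((Fact.out : q.Prime).dvd_of_dvd_pow (show q ∣ 2 ^ 2 from h))

variable {c : ℕ} [NeZero c]

/-- Inertia at `q` acts unipotently on `J₀(q M)`, up to the degree of a covering of good level. -/
theorem inertia_sq_mem (hc : c = 4 ∨ c = 9) (hqc : ¬ q ∣ c) (hqM : ¬ q ∣ M)
    {A : ValuationSubring QBar} (hA : A.LiesOverPrime q) {σ : Arith.GQ}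
    (hσ : σ ∈ A.inertiaSubgroupIn ℚ) {D : Divisor QBar (FB (q * M))} {m : ℕ}
    (hm : m ≠ 0) (hmq : ¬ q ∣ m)
    (hD : m • D ∈ Divisor.principal (K := QBar) (F := FB (q * M))) :
    finrankAlong QBar (levelIncF (n := q * M) (n' := q * (M * c))
        (mul_dvd_mul_left q (dvd_mul_right M c))) •
      (galD σ (galD σ D - D) - (galD σ D - D)) ∈
        Divisor.principal (K := QBar) (F := FB (q * M)) := by
  have hqM' : ¬ q ∣ M * c := fun h => ((Nat.Prime.dvd_mul hq.out).mp h).elim hqM hqc
  have : CharP (Res A) q := Arith.residueField_charP hA hq.out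
  have hM' : ((M * c : ℕ) : Res A) ≠ 0 := by rwa [Ne, CharP.cast_eq_zero_iff (Res A) q]
  have := isFunctionField_KM (A := A) hM'
  have hS : Setup A (M * c) q := ⟨hA, hqM', hM', goodM_of_dvd hc (dvd_mul_left c M) hM'⟩
  have : FF.IsFunctionField QBar (FB (q * M)) := ModFun.isFunctionField_bar (q * M)
  have : FF.IsFunctionField QBar (FB (q * (M * c))) := ModFun.isFunctionField_bar (q * (M * c))
  exact finrankAlong_smul_sq_mem
    (g := arithmeticGalois (modularFunctionFieldFull (q * M)) σ)
    (g' := arithmeticGalois (modularFunctionFieldFull (q * (M * c))) σ)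
    (φ := levelIncF (n := q * M) (n' := q * (M * c)) (mul_dvd_mul_left q (dvd_mul_right M c)))
    (hφ := fun x => levelIncF_galois _ σ x) (m := m)
    (h' := fun D' f hf hord => hS.inertia_sq_principal hσ hm hmq hf hord) (hD := hD)

/-- An element of degree zero whose class is killed by `n`. -/
theorem nsmul_mk_eq_zero {K F : Type*} [Field K] [Field F] [Algebra K F]
    (D : Divisor.degZero (K := K) (F := F)) (n : ℕ) :
    n • Pic0.mk D = 0 ↔ n • (D : Divisor K F) ∈ Divisor.principal (K := K) (F := F) := by
  refine (QuotientAddGroup.eq_zero_iff (n • D)).trans ?_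
  rw [AddSubgroup.mem_addSubgroupOf, AddSubgroup.coe_nsmul]

/-- The class form of `(g - 1) ^ 2`. -/
theorem smul_sq_class_eq_zero {K F : Type*} [Field K] [Field F] [Algebra K F]
    (g : SemilinearAut K F) (D : Divisor.degZero (K := K) (F := F)) (e : ℕ)
    (h : e • (g • (g • (D : Divisor K F) - D) - (g • (D : Divisor K F) - D)) ∈
      Divisor.principal (K := K) (F := F)) :
    e • (g • (g • Pic0.mk D - Pic0.mk D) - (g • Pic0.mk D - Pic0.mk D)) = 0 := by
  set gh := SemilinearAut.degZeroSMulHom (K := K) (F := F) g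
  show e • (Pic0.mk (gh (gh D - D)) - Pic0.mk (gh D - D)) = 0
  exact (nsmul_mk_eq_zero (gh (gh D - D) - (gh D - D)) e).mpr h

end Fermat.Agent.Semistable

namespace Fermat.Agent.Semistable

open ModularCurve AlgebraicCurve
open Arith (QBar)

/-- Unipotence on the torsion of order prime to `q`, up to a constant, at level `q M`. -/
theorem torsionUnipotentAt_mul (q M : ℕ) [Fact q.Prime] [NeZero M] (hqM : ¬ q ∣ M) :
    GaloisReps.TorsionUnipotentAt (q * M) q := by
  obtain ⟨c, hc, hqc⟩ := exists_aux q
  have : NeZero c := ⟨by rcases hc with rfl | rfl <;> norm_num⟩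
  have : FF.IsFunctionField QBar (FB (q * M)) := ModFun.isFunctionField_bar (q * M)
  have : FF.IsFunctionField QBar (FB (q * (M * c))) := ModFun.isFunctionField_bar (q * (M * c))
  refine ⟨_, FF.finrankAlong_pos (levelIncF (n := q * M) (n' := q * (M * c))
    (mul_dvd_mul_left q (dvd_mul_right M c))), fun m hm hmq A hA σ hσ x hx => ?_⟩
  obtain ⟨D, rfl⟩ := Pic0.mk_surjective x
  exact smul_sq_class_eq_zero (arithmeticGalois (modularFunctionFieldFull (q * M)) σ) D _
    (inertia_sq_mem hc hqc hqM hA hσ hm hmq ((nsmul_mk_eq_zero D m).mp hx))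

/-- Unipotence on the torsion of order prime to `q`, up to a constant, at `q ∥ N`. -/
theorem torsionUnipotentAt {N q : ℕ} [hN : NeZero N] (hq : q.Prime) (hqN : q ∣ N)
    (hq2 : ¬ q ^ 2 ∣ N) : GaloisReps.TorsionUnipotentAt N q := by
  have := Fact.mk hq
  obtain ⟨M, rfl⟩ := hqN
  have : NeZero M := ⟨fun h => NeZero.ne (q * M) (by rw [h, mul_zero])⟩
  exact torsionUnipotentAt_mul q M fun h => hq2 (by rw [pow_two]; exact Nat.mul_dvd_mul_left q h)

end Fermat.Agent.Semistable

end
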