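import Fermat.Agent.ModFun.Field
import Fermat.Agent.Semistable.General
import Fermat.Agent.Mazur.Eisenstein.Inputs
import Fermat.Agent.EichlerShimura.Equivariance
import Fermat.Agent.Gamma0.Main

/-!
# Unipotence of inertia without the auxiliary constant, for `q ≥ 5`

The covering of good level then has degree `4` or `6`, and the torsion of the Jacobian is divisible.
-/

set_option autoImplicit false
set_option synthInstance.maxHeartbeats 400000
set_option linter.style.haveILetI false

noncomputable section

namespace Fermat.Agent.Semistable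

open ModularCurve AlgebraicCurve
open Arith (QBar)
open scoped IntermediateField

/-- The degree of a covering by an inclusion of levels, times the degree over `j` below. -/
theorem finrankAlong_levelIncF {n n' : ℕ} [NeZero n] [NeZero n'] (h : n ∣ n') :
    dedekindPsi n * finrankAlong QBar (levelIncF h) = dedekindPsi n' := by
  letI := algebraAlong (levelIncF h)
  haveI := isScalarTower_along (levelIncF h)
  haveI : FF.IsFunctionField QBar (FB n) := ModFun.isFunctionField_bar n
  haveI : FF.IsFunctionField QBar (FB n') := ModFun.isFunctionField_bar n'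
  haveI : Module.Finite (FB n) (FB n') := FF.finiteAlong (levelIncF h)
  have e := (FF.finite_and_finrank_adjoin_algebraMap (F' := FB n')
    (ModFun.transcendental_jBase n QBar)).2
  have hj : algebraMap (FB n) (FB n') (ModFun.jBase n QBar) = ModFun.jBase n' QBar :=
    Subtype.ext ((coe_levelIncF h (ModFun.jBase n QBar)).trans
      ((ModFun.coe_jBase n QBar).trans (ModFun.coe_jBase n' QBar).symm))
  rw [hj, (ModFun.finrank_baseChange n' QBar).2, (ModFun.finrank_baseChange n QBar).2] at e
  exact e.symm

/-- For `q ≥ 5` the degree of the covering of good level is prime to `q`. -/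
theorem not_dvd_finrankAlong_levelIncF {q M : ℕ} [Fact q.Prime] [NeZero M] (hq : 5 ≤ q) :
    ¬ q ∣ finrankAlong QBar (levelIncF (n := q * M) (n' := q * (M * 4))
      (mul_dvd_mul_left q (dvd_mul_right M 4))) := by
  have h := finrankAlong_levelIncF (n := q * M) (n' := q * (M * 4))
    (mul_dvd_mul_left q (dvd_mul_right M 4))
  have hψ : dedekindPsi (q * (M * 4)) = dedekindPsi (q * M) * 4 ∨
      dedekindPsi (q * (M * 4)) = dedekindPsi (q * M) * 6 := by
    rw [show q * (M * 4) = 2 * (2 * (q * M)) by ring,
      Gamma0.dedekindPsi_mul_of_dvd Nat.prime_two (dvd_mul_right 2 _)]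
    by_cases h2 : 2 ∣ q * M
    · left; rw [Gamma0.dedekindPsi_mul_of_dvd Nat.prime_two h2]; ring
    · right; rw [Gamma0.dedekindPsi_mul_of_not_dvd Nat.prime_two h2]; ring
  have hpos : 0 < dedekindPsi (q * M) := dedekindPsi_pos (q * M)
  intro hd
  have hq' : q.Prime := Fact.out
  have h2 : ¬ q ∣ 2 := fun h => by have := Nat.le_of_dvd (by norm_num) h; omega
  have h3 : ¬ q ∣ 3 := fun h => by have := Nat.le_of_dvd (by norm_num) h; omega
  rcases hψ with e | e <;> rw [mul_left_cancel₀ hpos.ne' (h.trans e)] at hd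
  · exact ((hq'.dvd_mul).mp (show q ∣ 2 * 2 from hd)).elim h2 h2
  · exact ((hq'.dvd_mul).mp (show q ∣ 2 * 3 from hd)).elim h2 h3

/-- Inertia at `q ≥ 5` exactly dividing the level is unipotent on the torsion prime to `q`. -/
theorem semistableProperty {N q : ℕ} [NeZero N] (hq : q.Prime) (hq5 : 5 ≤ q) (hqN : q ∣ N)
    (hq2 : ¬ q ^ 2 ∣ N) : Mazur.Eisenstein.SemistableProperty N q := by
  have := Fact.mk hq
  obtain ⟨M, rfl⟩ := hqN
  have : NeZero M := ⟨fun h => NeZero.ne (q * M) (by rw [h, mul_zero])⟩
  have hqM : ¬ q ∣ M := fun h => hq2 (by rw [pow_two]; exact Nat.mul_dvd_mul_left q h)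
  have hq4 : ¬ q ∣ 4 := fun h => by
    have := Nat.le_of_dvd (by norm_num) h
    omega
  have hFB : FF.IsFunctionField QBar (FB (q * M)) := ModFun.isFunctionField_bar (q * M)
  have hFB' : FF.IsFunctionField QBar (FB (q * (M * 4))) :=
    ModFun.isFunctionField_bar (q * (M * 4))
  intro A hA σ hσ m x hqm hx
  set e := finrankAlong QBar (levelIncF (n := q * M) (n' := q * (M * 4))
    (mul_dvd_mul_left q (dvd_mul_right M 4)))
  have he : 0 < e := FF.finrankAlong_pos _
  obtain ⟨y, rfl⟩ := EichlerShimura.exists_nsmul_eq_JZero e he x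
  have hm : m ≠ 0 := fun h => hqm (h ▸ dvd_zero q)
  have hme : ¬ q ∣ m * e := fun h =>
    ((Nat.Prime.dvd_mul hq).mp h).elim hqm (not_dvd_finrankAlong_levelIncF hq5)
  obtain ⟨D, rfl⟩ := Pic0.mk_surjective y
  rw [← mul_nsmul'] at hx
  have h := smul_sq_class_eq_zero (arithmeticGalois (modularFunctionFieldFull (q * M)) σ) D e
    (inertia_sq_mem (Or.inl rfl) hq4 hqM hA hσ (Nat.mul_ne_zero hm he.ne') hme
      ((nsmul_mk_eq_zero D (m * e)).mp hx))
  have hs : ∀ z : JZero (q * M), σ • (e • z) = e • (σ • z) := fun z =>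
    map_nsmul (DistribSMul.toAddMonoidHom (JZero (q * M)) σ) e z
  have h' : e • (σ • (σ • Pic0.mk D - Pic0.mk D) - (σ • Pic0.mk D - Pic0.mk D) : JZero (q * M))
      = 0 := h
  have hab : ∀ a b : JZero (q * M), e • (a - b) = e • a - e • b := fun a b => smul_sub e a b
  rw [hs, ← hab, hs, ← hab]
  exact h'

end Fermat.Agent.Semistable

end
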